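import Fermat.Agent.Lowering.P3.TwoSheet.Criterion

/-!
# Two sheets: automorphisms fixing the values at the glued points fix classes which are powers
-/

set_option autoImplicit false
set_option linter.style.haveILetI false
set_option linter.unusedSectionVars false
set_option synthInstance.maxHeartbeats 400000

noncomputable section

namespace FLTAgent.Lowering.P3

open AlgebraicCurve FLTAgent.Curves FLTAgent.Specialization FLTAgent.BadRed Polynomial
  IntermediateField
open AlgebraicCurve.SemilinearAut (baseAut)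

variable {L k : Type} [Field L] [Field k] [IsAlgClosed L] [IsAlgClosed k] {A : ValuationSubring L}
  {π : A →+* k} {F Fb : Type} [Field F] [Field Fb] [Algebra L F] [Algebra k Fb]
  [IsFunctionField L F] [IsFunctionField k Fb]

namespace TwoSheet

variable {S : TwoSheet π F Fb}

namespace KData

variable {n : ℕ}

/-- The trivial data. -/
def unit (hn : (n : k) ≠ 0) : S.KData n where
  n_ne := hn
  f := 1
  f_ne := one_ne_zero
  dvd v := by rw [v.ord_one]; exact dvd_zero _
  d := 1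
  d_ne := one_ne_zero
  g := 1
  g₁_ne := one_ne_zero
  g₂_ne := one_ne_zero
  res := by rw [inv_one, one_pow, one_pow]; exact S.pair_one

/-- Powers of a set of data. -/
def npow (z : S.KData n) : ℕ → S.KData n
  | 0 => unit z.n_ne
  | j + 1 => (npow z j).mul z

theorem npow_f (z : S.KData n) (j : ℕ) : (z.npow j).f = z.f ^ j := by
  induction j with
  | zero => rw [pow_zero, npow]; rfl
  | succ j ih => rw [pow_succ, ← ih]; rfl

variable (N : S.Nodes)

theorem twist_unit (hn : (n : k) ≠ 0) : (unit (S := S) hn).twist N = 1 := by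
  refine (unit (S := S) hn).twist_eq N fun m φ hφ i => ?_
  obtain ⟨u, hu, w, hw, rfl⟩ := (unit (S := S) hn).mem_normImg.1 hφ
  have hu' : u ∈ riemannRochSpace ((m : ℤ) • poleDiv L S.X) := by
    rw [mem_space_iff] at hu
    refine mem_rrSpace.2 fun v => (hu v).mono (le_of_eq ?_)
    have hD := (unit (S := S) hn).mul_D v
    rw [show (unit (S := S) hn).f = 1 from rfl, v.ord_one] at hD
    rcases mul_eq_zero.1 hD with h | h
    · exact absurd h (by have := (unit (S := S) hn).pos; omega)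
    · rw [h, Finsupp.smul_apply, smul_eq_mul, zero_add]
  change (S.pair 1).Res u w at hw
  rw [show w * (unit (S := S) hn).g = w from mul_one w, Pi.one_apply, one_mul]
  exact (N.compat m w (LRed.mem_image_of_res hu' hw) i).symm

theorem twist_npow (z : S.KData n) (j : ℕ) : (z.npow j).twist N = z.twist N ^ j := by
  induction j with
  | zero => rw [pow_zero, npow]; exact twist_unit N z.n_ne
  | succ j ih => rw [npow, (z.npow j).twist_mul N z, ih, pow_succ]

end KData

namespace Sym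

variable (P : S.Sym)

theorem poles_smul {a : ℕ} {f : F} (hf : f ∈ riemannRochSpace ((a : ℤ) • poleDiv L S.X)) :
    P.σ • f ∈ riemannRochSpace ((a : ℤ) • poleDiv L S.X) := by
  refine mem_rrSpace.2 fun w => ?_
  rcases eq_or_ne f 0 with rfl | hf0
  · rw [smul_zero]; exact ordGE_zero _ _
  have h := (mem_rrSpace.1 hf (P.σ⁻¹ • w)).le_ord hf0
  have e1 := SemilinearAut.ord_smul P.σ (P.σ⁻¹ • w) f
  have e2 := SemilinearAut.ord_smul P.σ (P.σ⁻¹ • w) S.X
  rw [smul_inv_smul] at e1 e2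
  rw [P.σX] at e2
  rw [Finsupp.smul_apply, smul_eq_mul, poleDiv_apply] at h ⊢
  refine ordGE_of_le ?_
  rwa [e1, e2]

theorem smul_res₂ {c : L} {f : F} {g : Fb} (h : S.R₂.Res (c • f) g) :
    S.R₂.Res (baseAut P.σ c • (P.σ • f)) (P.σb₂ g) := by
  have := P.res₂ _ _ h
  rwa [Algebra.smul_def, smul_mul', SemilinearAut.smul_algebraMap, ← Algebra.smul_def] at this

theorem pair_smul {d : L} {f : F} {g : Fb × Fb} (h : (S.pair d).Res f g) :
    (S.pair (baseAut P.σ d)).Res (P.σ • f) (P.σb₁ g.1, P.σb₂ g.2) :=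
  ⟨P.res₁ _ _ h.1, P.smul_res₂ h.2⟩

/-- The conjugate data. -/
def mapData {n : ℕ} (z : S.KData n) : S.KData n where
  n_ne := z.n_ne
  f := P.σ • z.f
  f_ne := (smul_ne_zero_iff_ne P.σ).2 z.f_ne
  dvd v := by
    have e := SemilinearAut.ord_smul P.σ (P.σ⁻¹ • v) z.f
    rw [smul_inv_smul] at e
    rw [e]
    exact z.dvd _
  d := baseAut P.σ z.d
  d_ne := (map_ne_zero (baseAut P.σ)).2 z.d_ne
  g := (P.σb₁ z.g.1, P.σb₂ z.g.2)
  g₁_ne := (map_ne_zero P.σb₁).2 z.g₁_ne
  g₂_ne := (map_ne_zero P.σb₂).2 z.g₂_ne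
  res := by
    have := P.pair_smul z.res
    simpa [map_pow, map_inv₀] using this

theorem mem_normImg_mapData {n : ℕ} (z : S.KData n) {m : ℕ} {φ : Fb × Fb}
    (h : φ ∈ z.normImg m) : (P.σb₁ φ.1, P.σb₂ φ.2) ∈ (P.mapData z).normImg m := by
  obtain ⟨u, hu, w, hw, rfl⟩ := z.mem_normImg.1 h
  refine (P.mapData z).mem_normImg.2 ⟨P.σ • u, ?_, _, P.pair_smul hw, ?_⟩
  · refine KData.mem_space_of_pow _ ?_
    have := P.poles_smul (z.npow_mem hu)
    rwa [smul_mul', smul_pow'] at this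
  · simp [mapData]

variable (N : S.Nodes) (hs : ∀ i a, IntegralWrt k S.xb₁ a → N.s i (P.σb₁ a) = N.s i a)
  (ht : ∀ i a, IntegralWrt k S.xb₂ a → N.t i (P.σb₂ a) = N.t i a)
include hs ht

/-- The conjugate has the same gluing constants. -/
theorem twist_mapData {n : ℕ} (z : S.KData n) : (P.mapData z).twist N = z.twist N := by
  obtain ⟨m, φ, hφ, h1, h2⟩ := z.exists_unit N (z.twist_spec N) (z.twist_ne N)
  have hφ' := P.mem_normImg_mapData z hφ
  have hT := z.normImg_le_targ m hφ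
  funext i
  have h := (P.mapData z).twist_spec N m _ hφ' i
  rw [hs i _ (mem_rrSpace_poles.1 hT.1).1, ht i _ (mem_rrSpace_poles.1 hT.2).1, h1, h2,
    mul_one] at h
  exact h.symm

/-- The conjugate of a function of the kernel equals it up to `n`-th powers. -/
theorem exists_smul_eq {n : ℕ} (z : S.KData n) : ∃ h : F, P.σ • z.f = z.f * h ^ n := by
  have hn : n - 1 + 1 = n := Nat.sub_add_cancel z.pos
  have htw : ((P.mapData z).mul (z.npow (n - 1))).twist N = 1 := by
    rw [KData.twist_mul, P.twist_mapData N hs ht z, KData.twist_npow, ← pow_succ', hn]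
    funext i
    simp [z.twist_pow N i]
  obtain ⟨h, hh⟩ := KData.exists_root _ N htw
  refine ⟨h / z.f, ?_⟩
  change h ^ n = P.σ • z.f * (z.npow (n - 1)).f at hh
  rw [KData.npow_f] at hh
  rw [div_pow, hh]
  rw [show z.f ^ n = z.f ^ (n - 1) * z.f by rw [← pow_succ, hn]]
  have := z.f_ne
  field_simp

end Sym

/-- Data attached to a function whose reductions are powers. -/
theorem exists_data {n : ℕ} (hn : (n : k) ≠ 0) {f : F} (hf : f ≠ 0)
    (hdvd : ∀ v : Place L F, (n : ℤ) ∣ v.ord f) {c₁ c₂ : L} {h₁ h₂ : Fb} (h1 : h₁ ≠ 0)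
    (h2 : h₂ ≠ 0) (r1 : S.R₁.Res (c₁ • f) (h₁ ^ n)) (r2 : S.R₂.Res (c₂ • f) (h₂ ^ n)) :
    ∃ z : S.KData n, z.f = c₁ • f ∧ c₁ ≠ 0 := by
  have hne : n ≠ 0 := fun h => hn (by rw [h, Nat.cast_zero])
  have hc1 : c₁ ≠ 0 := by
    rintro rfl
    rw [zero_smul] at r1
    exact pow_ne_zero n h1 (r1.unique S.R₁.res_zero)
  have hc2 : c₂ ≠ 0 := by
    rintro rfl
    rw [zero_smul] at r2
    exact pow_ne_zero n h2 (r2.unique S.R₂.res_zero)
  obtain ⟨d, hd⟩ := IsAlgClosed.exists_pow_nat_eq (c₁ / c₂) (Nat.pos_of_ne_zero hne)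
  refine ⟨{
    n_ne := hn
    f := c₁ • f
    f_ne := smul_ne_zero hc1 hf
    dvd := fun v => by
      rw [Algebra.smul_def, v.ord_mul (by simpa using hc1) hf, ord_algebraMap, zero_add]
      exact hdvd v
    d := d
    d_ne := fun h => div_ne_zero hc1 hc2 (by rw [← hd, h, zero_pow hne])
    g := (h₁, h₂)
    g₁_ne := h1
    g₂_ne := h2
    res := ⟨r1, ?_⟩ }, rfl, hc1⟩
  rw [smul_smul, inv_pow, hd, inv_div, div_mul_cancel₀ _ hc1]
  exact r2

end TwoSheet

/-- Two sheets: classes which are powers on both sheets are fixed. -/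
theorem targetTwoSheet : TargetTwoSheet := by
  intro L k _ _ _ _ A π F Fb _ _ _ _ _ _ S N P hs ht n hn f hf hdvd c₁ c₂ h₁ h₂ e₁ e₂ r₁ r₂
  obtain ⟨z, hz, hc₁⟩ := TwoSheet.exists_data (S := S) hn hf hdvd e₁ e₂ r₁ r₂
  obtain ⟨h, hh⟩ := P.exists_smul_eq N hs ht z
  rw [hz, Algebra.smul_def, smul_mul', SemilinearAut.smul_algebraMap] at hh
  have hb : baseAut P.σ c₁ ≠ 0 := (map_ne_zero (baseAut P.σ)).2 hc₁
  refine ⟨(baseAut P.σ c₁)⁻¹ * c₁, h, mul_ne_zero (inv_ne_zero hb) hc₁, ?_⟩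
  have hb' : algebraMap L F (baseAut P.σ c₁) ≠ 0 := by simpa using hb
  rw [Algebra.smul_def, map_mul, map_inv₀]
  field_simp
  linear_combination hh

end FLTAgent.Lowering.P3
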