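import Fermat.Agent.Lowering.P3.Interface

/-!
# Two sheets: gluing constants of classes whose reductions are powers on both sheets
-/

set_option autoImplicit false
set_option linter.style.haveILetI false
set_option linter.unusedSectionVars false
set_option synthInstance.maxHeartbeats 400000

noncomputable section

namespace FLTAgent.Lowering.P3

open AlgebraicCurve FLTAgent.Curves FLTAgent.Specialization FLTAgent.BadRed Polynomial
  IntermediateField

variable {L k : Type} [Field L] [Field k] [IsAlgClosed L] [IsAlgClosed k] {A : ValuationSubring L}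
  {π : A →+* k} {F Fb : Type} [Field F] [Field Fb] [Algebra L F] [Algebra k Fb]
  [IsFunctionField L F] [IsFunctionField k Fb]

namespace TwoSheet

variable (S : TwoSheet π F Fb)

theorem pair_mul {d d' : L} {f f' : F} {g g' : Fb × Fb} (h : (S.pair d).Res f g)
    (h' : (S.pair d').Res f' g') : (S.pair (d * d')).Res (f * f') (g * g') :=
  ⟨h.1.mul h'.1, by rw [← smul_mul_smul_comm]; exact h.2.mul h'.2⟩

theorem pair_one : (S.pair 1).Res 1 1 := ⟨S.R₁.res_one, by rw [one_smul]; exact S.R₂.res_one⟩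

theorem pair_pow {d : L} {f : F} {g : Fb × Fb} (h : (S.pair d).Res f g) (n : ℕ) :
    (S.pair (d ^ n)).Res (f ^ n) (g ^ n) := by
  induction n with
  | zero => simpa using S.pair_one
  | succ n ih => rw [pow_succ, pow_succ, pow_succ]; exact S.pair_mul ih h

theorem pair_X : (S.pair 1).Res S.X (S.xb₁, S.xb₂) := ⟨S.X₁, by rw [one_smul]; exact S.X₂⟩

theorem pair_orth {d : L} (h : d ≠ 0) : (S.pair d).Orth := S.orth d h

theorem pair_orth_one : (S.pair 1).Orth := S.orth 1 one_ne_zero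

theorem xb₁_ne_zero : S.xb₁ ≠ 0 := ne_zero_of_transcendental S.transcendental₁

theorem xb₂_ne_zero : S.xb₂ ≠ 0 := ne_zero_of_transcendental S.transcendental₂

/-- Functions regular off the poles of the first coordinate. -/
def regular₁ : Subalgebra k Fb where
  carrier := {a | IntegralWrt k S.xb₁ a}
  mul_mem' := integralWrt_mul
  add_mem' := integralWrt_add
  algebraMap_mem' := integralWrt_algebraMap _

/-- Functions regular off the poles of the second coordinate. -/
def regular₂ : Subalgebra k Fb where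
  carrier := {a | IntegralWrt k S.xb₂ a}
  mul_mem' := integralWrt_mul
  add_mem' := integralWrt_add
  algebraMap_mem' := integralWrt_algebraMap _

theorem rimg_le_targ (m : ℕ) : S.rimg m ≤ S.targ m :=
  LRed.image_le fun _ _ hf h => S.res_mem_poles m _ _ hf h

theorem finiteDimensional_targ (m : ℕ) : FiniteDimensional k (S.targ m) :=
  Module.Finite.equiv (BadRed.prodSubEquiv _ _).symm

theorem Nodes.s_npow (N : S.Nodes) (i : Fin N.n) {a : Fb} (ha : a ∈ S.regular₁) (j : ℕ) :
    N.s i (a ^ j) = N.s i a ^ j := by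
  induction j with
  | zero => simpa using N.s_one i
  | succ j ih => rw [pow_succ, N.s_mul i _ _ (pow_mem ha j) ha, ih, pow_succ]

theorem Nodes.t_npow (N : S.Nodes) (i : Fin N.n) {a : Fb} (ha : a ∈ S.regular₂) (j : ℕ) :
    N.t i (a ^ j) = N.t i a ^ j := by
  induction j with
  | zero => simpa using N.t_one i
  | succ j ih => rw [pow_succ, N.t_mul i _ _ (pow_mem ha j) ha, ih, pow_succ]

/-- A function with divisor divisible by `n` whose reductions on both sheets are `n`-th powers. -/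
structure KData (n : ℕ) where
  n_ne : (n : k) ≠ 0
  f : F
  f_ne : f ≠ 0
  dvd : ∀ v : Place L F, (n : ℤ) ∣ v.ord f
  d : L
  d_ne : d ≠ 0
  g : Fb × Fb
  g₁_ne : g.1 ≠ 0
  g₂_ne : g.2 ≠ 0
  res : (S.pair (d⁻¹ ^ n)).Res f (g ^ n)

namespace KData

variable {S} {n : ℕ} (z : S.KData n)

include z in
theorem pos : 0 < n := Nat.pos_of_ne_zero fun h => z.n_ne (by rw [h, Nat.cast_zero])

/-- One `n`-th of the divisor. -/
def D : Divisor L F := (divOf L z.f).mapRange (fun e => e / (n : ℤ)) (Int.zero_ediv _)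

theorem mul_D (v : Place L F) : (n : ℤ) * z.D v = v.ord z.f := by
  rw [D, Finsupp.mapRange_apply, divOf_apply, Int.mul_ediv_cancel' (z.dvd v)]

theorem degree_D : Divisor.degree z.D = 0 := by
  have h : (n : ℤ) • z.D = divOf L z.f := Finsupp.ext fun v => by
    rw [Finsupp.smul_apply, smul_eq_mul, mul_D, divOf_apply]
  have h' := congrArg Divisor.degree h
  rw [map_zsmul, degree_divOf, smul_eq_mul] at h'
  have := z.pos
  rcases mul_eq_zero.1 h' with h'' | h''
  exacts [absurd h'' (by omega), h'']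

/-- Functions `u` with `uⁿ f` having poles bounded by `n m` times those of the coordinate. -/
def space (m : ℕ) : Submodule L F := riemannRochSpace (z.D + (m : ℤ) • poleDiv L S.X)

theorem mem_space_iff {u : F} {m : ℕ} :
    u ∈ z.space m ↔ ∀ v, OrdGE v (-(z.D v + (m : ℤ) * poleDiv L S.X v)) u := by
  simp [space, mem_rrSpace]

theorem space_mono {m m' : ℕ} (h : m ≤ m') : z.space m ≤ z.space m' := fun u hu =>
  (z.mem_space_iff).2 fun v => ((z.mem_space_iff).1 hu v).mono (by
    have := mul_le_mul_of_nonneg_right (Int.ofNat_le.2 h) (poleDiv_nonneg (K := L) S.X v)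
    omega)

/-- Products of `n` elements of the space, times `f`. -/
theorem mul_pow_mem {u u' : F} {m j l : ℕ} (hu : u ∈ z.space m) (hu' : u' ∈ z.space m)
    (hjl : j + l = n) :
    u' ^ j * u ^ l * z.f ∈ riemannRochSpace (((n * m : ℕ) : ℤ) • poleDiv L S.X) := by
  rw [mem_space_iff] at hu hu'
  refine mem_rrSpace.2 fun v => (((hu' v).pow j).mul ((hu v).pow l)).mul (ordGE_ord v z.f) |>.mono ?_
  rw [← z.mul_D v, Finsupp.smul_apply, smul_eq_mul]
  have hjl' : (j : ℤ) + l = n := by exact_mod_cast hjl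
  push_cast
  exact le_of_eq (by linear_combination (z.D v + (m : ℤ) * poleDiv L S.X v) * hjl')

theorem npow_mem {u : F} {m : ℕ} (hu : u ∈ z.space m) :
    u ^ n * z.f ∈ riemannRochSpace (((n * m : ℕ) : ℤ) • poleDiv L S.X) := by
  simpa using z.mul_pow_mem hu hu (Nat.add_zero n)

theorem mem_space_of_pow {u : F} {m : ℕ}
    (h : u ^ n * z.f ∈ riemannRochSpace (((n * m : ℕ) : ℤ) • poleDiv L S.X)) : u ∈ z.space m := by
  rw [mem_space_iff]
  intro v
  rcases eq_or_ne u 0 with rfl | hu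
  · exact ordGE_zero _ _
  have h' := (mem_rrSpace.1 h v).le_ord (mul_ne_zero (pow_ne_zero n hu) z.f_ne)
  rw [v.ord_mul (pow_ne_zero n hu) z.f_ne, ord_pow, ← z.mul_D v, Finsupp.smul_apply, smul_eq_mul]
    at h'
  refine ordGE_of_le (le_of_mul_le_mul_left ?_ (Int.natCast_pos.2 z.pos))
  push_cast at h'
  linarith

theorem finrank_space {m : ℕ} (hm : rBound L F ≤ m) : (Module.finrank L (z.space m) : ℤ) =
    Module.finrank L (riemannRochSpace ((m : ℤ) • poleDiv L S.X)) := by
  have h := le_degree_poles (K := L) S.transcendental_X hm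
  have e1 := ell_eq (K := L) (F := F) h
  have e2 := ell_eq (K := L) (F := F) (G := z.D + (m : ℤ) • poleDiv L S.X)
    (by rw [map_add, z.degree_D, zero_add]; exact h)
  rw [map_add, z.degree_D, zero_add] at e2
  exact e2.trans e1.symm

instance finiteDimensional_space (m : ℕ) : FiniteDimensional L (z.space m) :=
  finiteDimensional_rrSpace _

theorem res_mul_pow {u u' : F} {w w' : Fb × Fb} (h : (S.pair z.d).Res u w)
    (h' : (S.pair z.d).Res u' w') {j l : ℕ} (hjl : j + l = n) :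
    (S.pair 1).Res (u' ^ j * u ^ l * z.f) ((w' * z.g) ^ j * (w * z.g) ^ l) := by
  have := S.pair_mul (S.pair_mul (S.pair_pow h' j) (S.pair_pow h l)) z.res
  rw [← pow_add, hjl, ← mul_pow, mul_inv_cancel₀ z.d_ne, one_pow] at this
  convert this using 1
  rw [mul_pow, mul_pow, show z.g ^ n = z.g ^ j * z.g ^ l by rw [← pow_add, hjl]]
  ring

theorem res_pow {u : F} {w : Fb × Fb} (h : (S.pair z.d).Res u w) :
    (S.pair 1).Res (u ^ n * z.f) ((w * z.g) ^ n) := by
  simpa using z.res_mul_pow h h (Nat.add_zero n)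

/-- The normalised reductions of the space. -/
def normImg (m : ℕ) : Submodule k (Fb × Fb) :=
  ((S.pair z.d).image (z.space m)).map (LinearMap.mulRight k z.g)

theorem mem_normImg {φ : Fb × Fb} {m : ℕ} :
    φ ∈ z.normImg m ↔ ∃ u ∈ z.space m, ∃ w, (S.pair z.d).Res u w ∧ w * z.g = φ := by
  simp only [normImg, Submodule.mem_map, LRed.mem_image S.surj, LinearMap.mulRight_apply]
  exact ⟨fun ⟨w, ⟨u, hu, h⟩, e⟩ => ⟨u, hu, w, h, e⟩, fun ⟨u, hu, w, h, e⟩ => ⟨w, ⟨u, hu, h⟩, e⟩⟩

theorem normImg_mono {m m' : ℕ} (h : m ≤ m') : z.normImg m ≤ z.normImg m' :=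
  Submodule.map_mono (LRed.image_mono (z.space_mono h))

theorem mul_g_injective : Function.Injective (LinearMap.mulRight k z.g) := by
  intro a b h
  simp only [LinearMap.mulRight_apply, Prod.ext_iff, Prod.fst_mul, Prod.snd_mul] at h
  exact Prod.ext (mul_right_cancel₀ z.g₁_ne h.1) (mul_right_cancel₀ z.g₂_ne h.2)

theorem normImg_le_targ (m : ℕ) : z.normImg m ≤ S.targ m := by
  rintro φ hφ
  obtain ⟨u, hu, w, hw, rfl⟩ := z.mem_normImg.1 hφ
  obtain ⟨h1, h2⟩ := S.res_mem_poles _ _ _ (z.npow_mem hu) (z.res_pow hw)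
  have hn : (0 : ℤ) < n := Int.natCast_pos.2 z.pos
  have key : ∀ (x : Fb) (a : ℕ) (φ : Fb), φ ^ n ∈
      riemannRochSpace (((n * a : ℕ) : ℤ) • poleDiv k x) →
      φ ∈ riemannRochSpace ((a : ℤ) • poleDiv k x) := by
    intro x a φ h
    refine mem_rrSpace.2 fun v => ?_
    rcases eq_or_ne φ 0 with rfl | hφ0
    · exact ordGE_zero _ _
    have h' := (mem_rrSpace.1 h v).le_ord (pow_ne_zero n hφ0)
    rw [ord_pow, Finsupp.smul_apply, smul_eq_mul] at h'
    rw [Finsupp.smul_apply, smul_eq_mul]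
    refine ordGE_of_le (le_of_mul_le_mul_left ?_ hn)
    push_cast at h' ⊢
    linarith
  exact ⟨key _ m _ h1, key _ m _ h2⟩

theorem finrank_normImg {m : ℕ} (hm : rBound L F ≤ m) :
    Module.finrank k (z.normImg m) = Module.finrank k (S.rimg m) := by
  rw [normImg, ← (Submodule.equivMapOfInjective _ z.mul_g_injective _).finrank_eq,
    LRed.finrank_image (S.pair_orth z.d_ne) S.surj, rimg,
    LRed.finrank_image S.pair_orth_one S.surj]
  exact_mod_cast z.finrank_space hm

theorem relation {m : ℕ} {φ φ' : Fb × Fb} (hφ : φ ∈ z.normImg m) (hφ' : φ' ∈ z.normImg m)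
    (N : S.Nodes) (i : Fin N.n) :
    N.s i φ'.1 ^ (n - 1) * N.s i φ.1 = N.t i φ'.2 ^ (n - 1) * N.t i φ.2 := by
  have ht := z.normImg_le_targ m hφ
  have ht' := z.normImg_le_targ m hφ'
  obtain ⟨u, hu, w, hw, rfl⟩ := z.mem_normImg.1 hφ
  obtain ⟨u', hu', w', hw', rfl⟩ := z.mem_normImg.1 hφ'
  have hjl : n - 1 + 1 = n := Nat.sub_add_cancel z.pos
  have h := N.compat _ _ (LRed.mem_image_of_res (z.mul_pow_mem hu hu' hjl)
    (z.res_mul_pow hw hw' hjl)) i
  have h1 : (w * z.g).1 ∈ S.regular₁ := (mem_rrSpace_poles.1 ht.1).1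
  have h2 : (w * z.g).2 ∈ S.regular₂ := (mem_rrSpace_poles.1 ht.2).1
  have h1' : (w' * z.g).1 ∈ S.regular₁ := (mem_rrSpace_poles.1 ht'.1).1
  have h2' : (w' * z.g).2 ∈ S.regular₂ := (mem_rrSpace_poles.1 ht'.2).1
  generalize w * z.g = P at h h1 h2 ⊢
  generalize w' * z.g = P' at h h1' h2' ⊢
  simp only [pow_one, Prod.fst_mul, Prod.snd_mul, Prod.pow_fst, Prod.pow_snd] at h
  rwa [N.s_mul i _ _ (pow_mem h1' _) h1, Nodes.s_npow S N i h1',
    N.t_mul i _ _ (pow_mem h2' _) h2, Nodes.t_npow S N i h2'] at h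

/-- The gluing constants. -/
def Twist (N : S.Nodes) (ζ : Fin N.n → k) : Prop :=
  ∀ m φ, φ ∈ z.normImg m → ∀ i, N.t i φ.2 = ζ i * N.s i φ.1

theorem exists_twist (N : S.Nodes) :
    ∃ ζ : Fin N.n → k, (∀ i, ζ i ^ n = 1) ∧ z.Twist N ζ := by
  have hjl : n - 1 + 1 = n := Nat.sub_add_cancel z.pos
  have h : ∀ i, ∃ ζ : k, ζ ^ n = 1 ∧
      ∀ m φ, φ ∈ z.normImg m → N.t i φ.2 = ζ * N.s i φ.1 := by
    intro i
    have hself : ∀ m φ, φ ∈ z.normImg m → N.s i φ.1 ^ n = N.t i φ.2 ^ n := by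
      intro m φ hφ
      have := z.relation hφ hφ N i
      rwa [← pow_succ, ← pow_succ, hjl] at this
    by_cases h0 : ∃ m φ, φ ∈ z.normImg m ∧ N.s i φ.1 ≠ 0
    · obtain ⟨m', φ', hφ', hne⟩ := h0
      set a' := N.s i φ'.1
      set b' := N.t i φ'.2
      have hpow : (b' / a') ^ n = 1 := by
        rw [div_pow, ← hself m' φ' hφ', div_self (pow_ne_zero n hne)]
      refine ⟨b' / a', hpow, fun m φ hφ => ?_⟩
      have hr := z.relation (z.normImg_mono (le_max_left m m') hφ)
        (z.normImg_mono (le_max_right m m') hφ') N i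
      have hb' : b' ≠ 0 := by
        intro hb
        rw [hb, zero_div, zero_pow (by omega)] at hpow
        exact zero_ne_one hpow
      change a' ^ (n - 1) * N.s i φ.1 = b' ^ (n - 1) * N.t i φ.2 at hr
      have e : a' ^ n = b' ^ n := hself m' φ' hφ'
      rw [← hjl, pow_succ, pow_succ] at e
      field_simp
      refine mul_left_cancel₀ (pow_ne_zero (n - 1) hb') ?_
      linear_combination (norm := ring_nf) -a' * hr + N.s i φ.1 * e
    · push Not at h0
      refine ⟨1, one_pow n, fun m φ hφ => ?_⟩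
      have := hself m φ hφ
      rw [h0 m φ hφ, zero_pow (Nat.pos_iff_ne_zero.1 z.pos)] at this
      rw [h0 m φ hφ, mul_zero]
      exact pow_eq_zero_iff (Nat.pos_iff_ne_zero.1 z.pos) |>.1 this.symm
  choose ζ h1 h2 using h
  exact ⟨ζ, h1, fun m φ hφ i => h2 i m φ hφ⟩

end KData

/-- The condition at the glued points with given constants. -/
def glueMap (N : S.Nodes) (ζ : Fin N.n → k) : Fb × Fb →ₗ[k] (Fin N.n → k) :=
  LinearMap.pi fun i => (N.t i).comp (LinearMap.snd k Fb Fb) -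
    ζ i • (N.s i).comp (LinearMap.fst k Fb Fb)

/-- Pairs glued with given constants. -/
def twisted (N : S.Nodes) (ζ : Fin N.n → k) (m : ℕ) : Submodule k (Fb × Fb) :=
  S.targ m ⊓ LinearMap.ker (S.glueMap N ζ)

theorem mem_twisted {N : S.Nodes} {ζ : Fin N.n → k} {m : ℕ} {φ : Fb × Fb} :
    φ ∈ S.twisted N ζ m ↔ φ ∈ S.targ m ∧ ∀ i, N.t i φ.2 = ζ i * N.s i φ.1 := by
  simp [twisted, glueMap, funext_iff, sub_eq_zero]

variable {S}

theorem rimg_eq_twisted (N : S.Nodes) {m : ℕ} (hm : N.m₀ ≤ m) :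
    S.rimg m = S.twisted N 1 m := by
  refine le_antisymm (fun g hg => S.mem_twisted.2 ⟨S.rimg_le_targ m hg, fun i => ?_⟩) fun g hg => ?_
  · simpa using (N.compat m g hg i).symm
  · obtain ⟨h1, h2⟩ := S.mem_twisted.1 hg
    exact N.char m hm g h1 fun i => by simpa using (h2 i).symm

theorem finrank_twisted_add (N : S.Nodes) {ζ : Fin N.n → k} (hζ : ∀ i, ζ i ≠ 0) {m : ℕ}
    (hm : N.m₀ ≤ m) :
    Module.finrank k (S.twisted N ζ m) + N.n = Module.finrank k (S.targ m) := by
  haveI := S.finiteDimensional_targ m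
  set Ψ := (S.glueMap N ζ).comp (S.targ m).subtype with hΨ
  have hsurj : LinearMap.range Ψ = ⊤ := by
    rw [LinearMap.range_eq_top]
    intro c
    obtain ⟨a, ha, has⟩ := N.surj₁ m hm fun i => -(c i / ζ i)
    refine ⟨⟨(a, 0), ha, Submodule.zero_mem _⟩, funext fun i => ?_⟩
    simp [Ψ, glueMap, has, mul_div_cancel₀ _ (hζ i)]
  have hker : Module.finrank k (LinearMap.ker Ψ) = Module.finrank k (S.twisted N ζ m) := by
    rw [hΨ, LinearMap.ker_comp, show (LinearMap.ker (S.glueMap N ζ)).comap (S.targ m).subtype =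
      (S.twisted N ζ m).comap (S.targ m).subtype by
        ext x; simp [twisted]]
    exact (Submodule.comapSubtypeEquivOfLe inf_le_left).finrank_eq
  have h := LinearMap.finrank_range_add_finrank_ker Ψ
  rw [hsurj, finrank_top, Module.finrank_fin_fun, hker] at h
  omega

namespace KData

variable {n : ℕ} (z : S.KData n) (N : S.Nodes)

theorem normImg_eq_twisted {ζ : Fin N.n → k} (hζ : z.Twist N ζ) (h0 : ∀ i, ζ i ≠ 0) {m : ℕ}
    (hm : N.m₀ ≤ m) : z.normImg m = S.twisted N ζ m := by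
  haveI := S.finiteDimensional_targ m
  haveI : FiniteDimensional k (S.twisted N ζ m) :=
    Submodule.finiteDimensional_of_le (inf_le_left : S.twisted N ζ m ≤ S.targ m)
  have hb := N.bound_le
  have := Int.self_le_toNat (rBound L F)
  refine Submodule.eq_of_le_of_finrank_le
    (fun φ hφ => S.mem_twisted.2 ⟨z.normImg_le_targ m hφ, hζ m φ hφ⟩) (le_of_eq ?_)
  have h1 := finrank_twisted_add N h0 hm
  have h2 := finrank_twisted_add N (ζ := 1) (fun _ => one_ne_zero) hm
  rw [z.finrank_normImg (by omega), rimg_eq_twisted N hm]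
  omega

theorem exists_unit (N : S.Nodes) {ζ : Fin N.n → k} (hζ : z.Twist N ζ) (h0 : ∀ i, ζ i ≠ 0) :
    ∃ m φ, φ ∈ z.normImg m ∧ (∀ i, N.s i φ.1 = 1) ∧ ∀ i, N.t i φ.2 = ζ i := by
  obtain ⟨a', ha', hs'⟩ := N.surj₂ N.m₀ le_rfl ζ
  obtain ⟨a, ha, hs⟩ := N.surj₁ N.m₀ le_rfl fun _ => 1
  refine ⟨N.m₀, (a, a'), ?_, hs, hs'⟩
  rw [z.normImg_eq_twisted N hζ h0 le_rfl, mem_twisted]
  exact ⟨⟨ha, ha'⟩, fun i => by rw [hs', hs, mul_one]⟩

theorem twist_unique {ζ ζ' : Fin N.n → k} (hζ : z.Twist N ζ) (h0 : ∀ i, ζ i ≠ 0)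
    (hζ' : z.Twist N ζ') : ζ' = ζ := by
  obtain ⟨m, φ, hφ, h1, h2⟩ := z.exists_unit N hζ h0
  funext i
  have := hζ' m φ hφ i
  rw [h1, h2, mul_one] at this
  exact this.symm

/-- The gluing constants of a class. -/
def twist : Fin N.n → k := (z.exists_twist N).choose

theorem twist_pow (i : Fin N.n) : z.twist N i ^ n = 1 := (z.exists_twist N).choose_spec.1 i

theorem twist_ne (i : Fin N.n) : z.twist N i ≠ 0 := fun h => by
  have := z.twist_pow N i
  rw [h, zero_pow (Nat.pos_iff_ne_zero.1 z.pos)] at this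
  exact zero_ne_one this

theorem twist_spec : z.Twist N (z.twist N) := (z.exists_twist N).choose_spec.2

theorem twist_eq {ζ : Fin N.n → k} (hζ : z.Twist N ζ) : z.twist N = ζ :=
  (z.twist_unique N (z.twist_spec N) (z.twist_ne N) hζ).symm

/-- Product of two sets of data. -/
def mul (z' : S.KData n) : S.KData n where
  n_ne := z.n_ne
  f := z.f * z'.f
  f_ne := mul_ne_zero z.f_ne z'.f_ne
  dvd v := by rw [v.ord_mul z.f_ne z'.f_ne]; exact dvd_add (z.dvd v) (z'.dvd v)
  d := z.d * z'.d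
  d_ne := mul_ne_zero z.d_ne z'.d_ne
  g := z.g * z'.g
  g₁_ne := mul_ne_zero z.g₁_ne z'.g₁_ne
  g₂_ne := mul_ne_zero z.g₂_ne z'.g₂_ne
  res := by rw [mul_inv, mul_pow, mul_pow]; exact S.pair_mul z.res z'.res

theorem twist_mul (z' : S.KData n) : (z.mul z').twist N = z.twist N * z'.twist N := by
  obtain ⟨m, φ, hφ, h1, h2⟩ := z.exists_unit N (z.twist_spec N) (z.twist_ne N)
  obtain ⟨m', φ', hφ', h1', h2'⟩ := z'.exists_unit N (z'.twist_spec N) (z'.twist_ne N)
  have ht := z.normImg_le_targ m hφ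
  have ht' := z'.normImg_le_targ m' hφ'
  obtain ⟨u, hu, w, hw, rfl⟩ := z.mem_normImg.1 hφ
  obtain ⟨u', hu', w', hw', rfl⟩ := z'.mem_normImg.1 hφ'
  have hm : u * u' ∈ (z.mul z').space (m + m') := by
    refine mem_space_of_pow _ ?_
    have h := mem_rrSpace_mul (z.npow_mem hu) (z'.npow_mem hu')
    rw [← add_smul] at h
    change (u * u') ^ n * (z.f * z'.f) ∈ _
    rw [mul_pow, mul_mul_mul_comm]
    convert h using 4
    push_cast; ring
  have hn := (z.mul z').mem_normImg.2 ⟨_, hm, _, S.pair_mul hw hw', rfl⟩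
  funext i
  have h := (z.mul z').twist_spec N _ _ hn i
  have r1 : (w * z.g).1 ∈ S.regular₁ := (mem_rrSpace_poles.1 ht.1).1
  have r2 : (w * z.g).2 ∈ S.regular₂ := (mem_rrSpace_poles.1 ht.2).1
  have r1' : (w' * z'.g).1 ∈ S.regular₁ := (mem_rrSpace_poles.1 ht'.1).1
  have r2' : (w' * z'.g).2 ∈ S.regular₂ := (mem_rrSpace_poles.1 ht'.2).1
  rw [show w * w' * (z.mul z').g = w * z.g * (w' * z'.g) from mul_mul_mul_comm w w' z.g z'.g,
    Prod.fst_mul, Prod.snd_mul, N.s_mul i _ _ r1 r1', N.t_mul i _ _ r2 r2', h1, h1', h2, h2',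
    mul_one, mul_one] at h
  exact h.symm

end KData

end TwoSheet

end FLTAgent.Lowering.P3
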